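import Fermat.Agent.Root.SummaryTateModTwo
import Fermat.Agent.OpenImageJ.CyclotomicTwo
import Mathlib.RingTheory.Filtration

/-!
# The method of Faltings, Serre and Livné at two

A function on `G_ℚ` which is invariant under multiplication by squares, locally constant and
unramified outside `2` factors through `Gal(ℚ(μ₈)/ℚ)`, whose elements are given by `1` and by
Frobenius elements at `3`, `5`, `7`. For two representations in `GL₂(R)`, congruent modulo `𝔪 ^ a`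
in trace and determinant and residually trivial up to semisimplification, the differences are such
functions modulo `𝔪 ^ (a + 1)`.
-/

set_option autoImplicit false
set_option linter.unusedSectionVars false
set_option linter.style.haveILetI false

noncomputable section

open Matrix

local notation "Qb" => AlgebraicClosure ℚ
local notation "GQ" => AlgebraicClosure ℚ ≃ₐ[ℚ] AlgebraicClosure ℚ

namespace FA.FSTwo

/-- A subgroup containing all squares is normal. -/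
theorem normal_of_sq {G : Type*} [Group G] (N : Subgroup G) (h : ∀ g : G, g * g ∈ N) : N.Normal :=
  ⟨fun n hn g => by
    rw [show g * n * g⁻¹ = (g * n) * (g * n) * n⁻¹ * (g * g)⁻¹ by group]
    exact mul_mem (mul_mem (h _) (inv_mem hn)) (inv_mem (h g))⟩

/-- **The quotient by squares is that of `ℚ(μ₈)`.** -/
theorem mem_of_fix_roots_eight (N : Subgroup GQ) (hsq : ∀ g : GQ, g * g ∈ N)
    (hopen : IsOpen (N : Set GQ))
    (hun : ∀ l : ℕ, l.Prime → l ≠ 2 → ∀ A : ValuationSubring Qb, A.LiesOverPrime l →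
      A.inertiaSubgroupIn ℚ ≤ N)
    {σ : GQ} (hσ : ∀ μ : Qb, μ ^ 8 = 1 → σ μ = μ) : σ ∈ N := by
  have := normal_of_sq N hsq
  have hsq' : ∀ x : GQ ⧸ N, x * x = 1 := fun x => by
    obtain ⟨g, rfl⟩ := QuotientGroup.mk'_surjective N x
    rw [← map_mul]
    exact (QuotientGroup.eq_one_iff _).2 (hsq g)
  have hinv : ∀ x : GQ ⧸ N, x⁻¹ = x := fun x => inv_eq_of_mul_eq_one_right (hsq' x)
  let _ : CommGroup (GQ ⧸ N) :=
    { (inferInstance : Group (GQ ⧸ N)) with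
      mul_comm := fun a b => by rw [← hinv (a * b), _root_.mul_inv_rev, hinv, hinv] }
  have h := FA.CycTwo.eq_one_of_fix_roots (QuotientGroup.mk' N) (n := 1)
    (by rwa [QuotientGroup.ker_mk'])
    (fun g => by rw [pow_one, sq]; exact hsq' _)
    (fun l hl hl2 A hA => by rw [QuotientGroup.ker_mk']; exact hun l hl hl2 A hA)
    (σ := σ) (by simpa using hσ)
  exact (QuotientGroup.eq_one_iff σ).1 h

/-- **One Frobenius element at each of `3`, `5`, `7` covers the quotient by squares.** -/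
theorem exists_cover (N : Subgroup GQ) (hsq : ∀ g : GQ, g * g ∈ N)
    (hopen : IsOpen (N : Set GQ))
    (hun : ∀ l : ℕ, l.Prime → l ≠ 2 → ∀ A : ValuationSubring Qb, A.LiesOverPrime l →
      A.inertiaSubgroupIn ℚ ≤ N)
    {P : GQ → Prop} (h1 : P 1)
    (hF : ∀ l ∈ ({3, 5, 7} : Finset ℕ), ∃ A : ValuationSubring Qb, A.LiesOverPrime l ∧
      ∃ σ, A.IsFrobeniusAt σ l ∧ P σ)
    (σ : GQ) : ∃ τ, P τ ∧ τ⁻¹ * σ ∈ N := by
  obtain ⟨a, hcop, ha⟩ := FA.PadicImage.exists_exponent_roots σ Nat.prime_two 3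
  have key : ∀ τ : GQ, (∀ μ : Qb, μ ^ 8 = 1 → τ μ = μ ^ (a % 8)) → τ⁻¹ * σ ∈ N := by
    intro τ hτ
    refine mem_of_fix_roots_eight N hsq hopen hun fun μ hμ => ?_
    rw [AlgEquiv.mul_apply, ha μ (by simpa using hμ), pow_eq_pow_mod a hμ, ← hτ μ hμ,
      AlgEquiv.aut_inv, AlgEquiv.symm_apply_apply]
  have hl : ∀ l ∈ ({3, 5, 7} : Finset ℕ), a % 8 = l → ∃ τ, P τ ∧ τ⁻¹ * σ ∈ N := by
    intro l hl e
    obtain ⟨A, hA, τ, hτ, hP⟩ := hF l hl
    have hp : l.Prime ∧ l ≠ 2 := by fin_cases hl <;> norm_num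
    exact ⟨τ, hP, key τ fun μ hμ => e ▸
      FA.TW.frobenius_apply_rootOfUnity (m := 3) Nat.prime_two hp.1 hp.2 hA hτ (by simpa using hμ)⟩
  have hodd : a % 2 = 1 := Nat.odd_iff.1 ((Nat.Coprime.coprime_dvd_right
    (dvd_pow_self 2 three_ne_zero) hcop).odd_of_right)
  rcases (by omega : a % 8 = 1 ∨ a % 8 = 3 ∨ a % 8 = 5 ∨ a % 8 = 7) with e | e | e | e
  · exact ⟨1, h1, key 1 fun μ _ => by rw [e, pow_one]; rfl⟩
  · exact hl 3 (by simp) e
  · exact hl 5 (by simp) e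
  · exact hl 7 (by simp) e

variable {R : Type*} [CommRing R]

theorem trace_mul_sq (X Y : Matrix (Fin 2) (Fin 2) R) :
    (X * (Y * Y)).trace = (X * Y).trace * Y.trace - Y.det * X.trace := by
  simp [trace_fin_two, mul_apply, det_fin_two, Fin.sum_univ_two]
  ring

variable (𝔪 : Ideal R) [𝔪.IsMaximal] (h2 : (2 : R) ∈ 𝔪)

include h2 in
/-- The residual trace is zero and the residual determinant one. -/
theorem trace_det_residual (ρ : GQ →* GL (Fin 2) R)
    (hopen : ∀ n : ℕ,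
      IsOpen (((GeneralLinearGroup.map (Ideal.Quotient.mk (𝔪 ^ n))).comp ρ).ker : Set GQ))
    (hun : ∀ q : ℕ, q.Prime → q ≠ 2 → ∀ A : ValuationSubring Qb, A.LiesOverPrime q →
      A.inertiaSubgroupIn ℚ ≤ ρ.ker) (σ : GQ) :
    (ρ σ : Matrix (Fin 2) (Fin 2) R).trace ∈ 𝔪 ∧
      (ρ σ : Matrix (Fin 2) (Fin 2) R).det - 1 ∈ 𝔪 := by
  let := Ideal.Quotient.field 𝔪
  have : CharP (R ⧸ 𝔪) 2 := (CharP.charP_iff_prime_eq_zero Nat.prime_two).2 (by
    rw [← map_natCast (Ideal.Quotient.mk 𝔪), Ideal.Quotient.eq_zero_iff_mem]; simpa using h2)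
  set ρ' := (GeneralLinearGroup.map (n := Fin 2) (Ideal.Quotient.mk 𝔪)).comp ρ
  have ho : IsOpen (ρ'.ker : Set GQ) := by
    have h := hopen 1
    rw [pow_one] at h
    exact h
  obtain ⟨ht, hd⟩ := FA.Summary.tate_mod_two_charpoly ρ' ho
    (fun q hq hq2 A hA τ hτ => MonoidHom.mem_ker.2 (by
      show GeneralLinearGroup.map _ (ρ τ) = 1
      rw [MonoidHom.mem_ker.1 (hun q hq hq2 A hA hτ), map_one])) σ
  constructor
  · rw [← Ideal.Quotient.eq_zero_iff_mem, ← ht]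
    simp [ρ', trace_fin_two]
  · rw [← Ideal.Quotient.eq_zero_iff_mem, map_sub, map_one, RingHom.map_det, sub_eq_zero, ← hd]
    rfl

include h2 in
/-- **Trace and determinant are given by their values at `3`, `5`, `7`.** -/
theorem trace_det_eq (hsep : ⨅ n : ℕ, 𝔪 ^ n = ⊥) (ρ₁ ρ₂ : GQ →* GL (Fin 2) R)
    (hopen₁ : ∀ n : ℕ,
      IsOpen (((GeneralLinearGroup.map (Ideal.Quotient.mk (𝔪 ^ n))).comp ρ₁).ker : Set GQ))
    (hopen₂ : ∀ n : ℕ,
      IsOpen (((GeneralLinearGroup.map (Ideal.Quotient.mk (𝔪 ^ n))).comp ρ₂).ker : Set GQ))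
    (hun₁ : ∀ q : ℕ, q.Prime → q ≠ 2 → ∀ A : ValuationSubring Qb, A.LiesOverPrime q →
      A.inertiaSubgroupIn ℚ ≤ ρ₁.ker)
    (hun₂ : ∀ q : ℕ, q.Prime → q ≠ 2 → ∀ A : ValuationSubring Qb, A.LiesOverPrime q →
      A.inertiaSubgroupIn ℚ ≤ ρ₂.ker)
    (hF : ∀ l ∈ ({3, 5, 7} : Finset ℕ), ∃ A : ValuationSubring Qb, A.LiesOverPrime l ∧
      ∃ σ, A.IsFrobeniusAt σ l ∧
        (ρ₁ σ : Matrix (Fin 2) (Fin 2) R).trace = (ρ₂ σ : Matrix (Fin 2) (Fin 2) R).trace ∧
        (ρ₁ σ : Matrix (Fin 2) (Fin 2) R).det = (ρ₂ σ : Matrix (Fin 2) (Fin 2) R).det)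
    (σ : GQ) :
    (ρ₁ σ : Matrix (Fin 2) (Fin 2) R).trace = (ρ₂ σ : Matrix (Fin 2) (Fin 2) R).trace ∧
      (ρ₁ σ : Matrix (Fin 2) (Fin 2) R).det = (ρ₂ σ : Matrix (Fin 2) (Fin 2) R).det := by
  set t₁ := fun g => (ρ₁ g : Matrix (Fin 2) (Fin 2) R).trace
  set t₂ := fun g => (ρ₂ g : Matrix (Fin 2) (Fin 2) R).trace
  set d₁ := fun g => (ρ₁ g : Matrix (Fin 2) (Fin 2) R).det
  set d₂ := fun g => (ρ₂ g : Matrix (Fin 2) (Fin 2) R).det
  suffices ∀ (a : ℕ) (g : GQ), t₁ g - t₂ g ∈ 𝔪 ^ a ∧ d₁ g - d₂ g ∈ 𝔪 ^ a by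
    constructor <;> rw [← sub_eq_zero, ← Ideal.mem_bot, ← hsep, Submodule.mem_iInf]
    · exact fun a => (this a σ).1
    · exact fun a => (this a σ).2
  intro a
  induction a with
  | zero => exact fun g => by simp
  | succ a ih =>
    set I := 𝔪 ^ (a + 1)
    let f : GQ → (R ⧸ I) × (R ⧸ I) := fun g =>
      (Ideal.Quotient.mk I (t₁ g - t₂ g), Ideal.Quotient.mk I (d₁ g - d₂ g))
    let N : Subgroup GQ :=
      { carrier := {h | ∀ g, f (g * h) = f g}
        one_mem' := fun g => by rw [mul_one]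
        mul_mem' := fun {x y} hx hy g => by rw [← mul_assoc, hy, hx]
        inv_mem' := fun {x} hx g => by rw [← hx (g * x⁻¹), inv_mul_cancel_right] }
    have hmem : ∀ {x y : R}, x ∈ 𝔪 ^ a → y ∈ 𝔪 → x * y ∈ I := fun hx hy => by
      show _ ∈ 𝔪 ^ (a + 1)
      rw [pow_succ]
      exact Ideal.mul_mem_mul hx hy
    have hres₁ := trace_det_residual 𝔪 h2 ρ₁ hopen₁ hun₁
    have hres₂ := trace_det_residual 𝔪 h2 ρ₂ hopen₂ hun₂
    have hsq : ∀ h : GQ, h * h ∈ N := fun h g => by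
      have et₁ : t₁ (g * (h * h)) = t₁ (g * h) * t₁ h - d₁ h * t₁ g := by
        simp only [t₁, d₁, map_mul, Units.val_mul, trace_mul_sq]
      have et₂ : t₂ (g * (h * h)) = t₂ (g * h) * t₂ h - d₂ h * t₂ g := by
        simp only [t₂, d₂, map_mul, Units.val_mul, trace_mul_sq]
      have ed₁ : d₁ (g * (h * h)) = d₁ g * (d₁ h * d₁ h) := by
        simp only [d₁, map_mul, Units.val_mul, det_mul]
      have ed₂ : d₂ (g * (h * h)) = d₂ g * (d₂ h * d₂ h) := by
        simp only [d₂, map_mul, Units.val_mul, det_mul]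
      have hgh := ih (g * h)
      have hh := ih h
      have hg := ih g
      refine Prod.ext ?_ ?_ <;> simp only [f] <;> rw [Ideal.Quotient.mk_eq_mk_iff_sub_mem]
      · rw [et₁, et₂, show t₁ (g * h) * t₁ h - d₁ h * t₁ g - (t₂ (g * h) * t₂ h - d₂ h * t₂ g) -
            (t₁ g - t₂ g) = (t₁ (g * h) - t₂ (g * h)) * t₁ h + (t₁ h - t₂ h) * t₂ (g * h) -
            (d₁ h - d₂ h) * t₁ g - (t₁ g - t₂ g) * (d₂ h - 1) - (t₁ g - t₂ g) * 2 by ring]
        exact sub_mem (sub_mem (sub_mem (add_mem (hmem hgh.1 (hres₁ h).1) (hmem hh.1 (hres₂ _).1))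
          (hmem hh.2 (hres₁ g).1)) (hmem hg.1 (hres₂ h).2)) (hmem hg.1 h2)
      · rw [ed₁, ed₂, show d₁ g * (d₁ h * d₁ h) - d₂ g * (d₂ h * d₂ h) - (d₁ g - d₂ g) =
            (d₁ g - d₂ g) * ((d₁ h - 1) * (d₁ h + 1)) +
              (d₁ h - d₂ h) * (((d₁ h - 1) + (d₂ h - 1) + 2) * d₂ g) by ring]
        exact add_mem (hmem hg.2 (Ideal.mul_mem_right _ _ (hres₁ h).2)) (hmem hh.2
          (Ideal.mul_mem_right _ _ (add_mem (add_mem (hres₁ h).2 (hres₂ h).2) h2)))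
    set K := ((GeneralLinearGroup.map (n := Fin 2) (Ideal.Quotient.mk I)).comp ρ₁).ker ⊓
      ((GeneralLinearGroup.map (n := Fin 2) (Ideal.Quotient.mk I)).comp ρ₂).ker
    have hK : K ≤ N := fun h ⟨h₁, h₂⟩ g => by
      have aux : ∀ (ρ : GQ →* GL (Fin 2) R),
          h ∈ ((GeneralLinearGroup.map (n := Fin 2) (Ideal.Quotient.mk I)).comp ρ).ker →
          Ideal.Quotient.mk I (ρ (g * h) : Matrix (Fin 2) (Fin 2) R).trace =
            Ideal.Quotient.mk I (ρ g : Matrix (Fin 2) (Fin 2) R).trace ∧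
          Ideal.Quotient.mk I (ρ (g * h) : Matrix (Fin 2) (Fin 2) R).det =
            Ideal.Quotient.mk I (ρ g : Matrix (Fin 2) (Fin 2) R).det := fun ρ hρ => by
        have e : ((ρ h : Matrix (Fin 2) (Fin 2) R)).map (Ideal.Quotient.mk I) = 1 :=
          congrArg Units.val (MonoidHom.mem_ker.1 hρ)
        have e' : ((ρ (g * h) : Matrix (Fin 2) (Fin 2) R)).map (Ideal.Quotient.mk I) =
            ((ρ g : Matrix (Fin 2) (Fin 2) R)).map (Ideal.Quotient.mk I) := by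
          rw [map_mul, Units.val_mul, Matrix.map_mul, e, mul_one]
        refine ⟨?_, ?_⟩
        · have ht := congrArg Matrix.trace e'
          simp only [trace_fin_two, Matrix.map_apply] at ht
          rw [trace_fin_two, trace_fin_two, map_add, map_add]
          exact ht
        · rw [RingHom.map_det, RingHom.map_det]
          exact congrArg Matrix.det e'
      obtain ⟨a1, b1⟩ := aux ρ₁ h₁
      obtain ⟨a2, b2⟩ := aux ρ₂ h₂
      refine Prod.ext ?_ ?_ <;> simp only [f, map_sub, t₁, t₂, d₁, d₂]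
      · rw [a1, a2]
      · rw [b1, b2]
    have hopenN : IsOpen (N : Set GQ) := Subgroup.isOpen_mono hK
      (by rw [Subgroup.coe_inf]; exact (hopen₁ _).inter (hopen₂ _))
    have hunN : ∀ l : ℕ, l.Prime → l ≠ 2 → ∀ A : ValuationSubring Qb, A.LiesOverPrime l →
        A.inertiaSubgroupIn ℚ ≤ N := fun l hl hl2 A hA τ hτ => hK
      ⟨MonoidHom.mem_ker.2 (by
          rw [MonoidHom.comp_apply, MonoidHom.mem_ker.1 (hun₁ l hl hl2 A hA hτ), map_one]),
        MonoidHom.mem_ker.2 (by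
          rw [MonoidHom.comp_apply, MonoidHom.mem_ker.1 (hun₂ l hl hl2 A hA hτ), map_one])⟩
    intro g
    obtain ⟨τ, hτ, hτg⟩ := exists_cover N hsq hopenN hunN (P := fun τ => f τ = 0)
      (by simp [f, t₁, t₂, d₁, d₂]) (fun l hl => by
        obtain ⟨A, hA, s, hs, ht, hd⟩ := hF l hl
        exact ⟨A, hA, s, hs, by simp [f, t₁, t₂, d₁, d₂, ht, hd]⟩) g
    have h0 : f g = 0 := by
      have := hτg τ
      rw [mul_inv_cancel_left] at this
      exact this.trans hτ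
    exact ⟨Ideal.Quotient.eq_zero_iff_mem.1 (congrArg Prod.fst h0),
      Ideal.Quotient.eq_zero_iff_mem.1 (congrArg Prod.snd h0)⟩

end FA.FSTwo

end
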